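import Fermat.Agent.LT.T5.H40.HS0Spec

/-!
# Row LT, tower T5, leaf T5.02 `LeafHS0`: the PROVED top (helper40)

OFF-MAIN.  `leafHS0_of_leaves : HS0Leaves K 𝔫 τ → T1.ReductionC K → T1.LocCompC K → 𝔫 ≠ ⊥ →
LeafHS0 𝔫 τ`.

Steps (all formal):
* `ker0_rat_inv40`   : `K_φ(γ₁ x, γ₂ y) = K_φ(x, y)`;
* `ker0_adjoint40`   : `K_{φ*}(y, x) = conj K_φ(x, y)` (the ray generator is central);
* `ker0_eq_borelSum40` : if only `B(K)` contributes, `K_φ(x, y) = borelSum`;
* `kerBdd_of_leaves40` : the kernel is bounded (`KerBddC`);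
* `leafHS0_of_leaves`  : a bounded continuous kernel is in `L²(F × F)`, `μ(F) < ∞`.
-/

set_option autoImplicit false

open IsDedekindDomain NumberField MeasureTheory
open scoped MatrixGroups ComplexConjugate

noncomputable section

namespace Fermat.Agent.LT.T5.H40

open Fermat.Agent.LT.H556.A0 Fermat.Agent.LT.T5

attribute [local instance] Fermat.Agent.LT.T5.instMeasurableSpaceG

variable {K : Type} [Field K] [NumberField K]

/-- The kernel is invariant under `GL₂(K)` acting on the left on both variables. -/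
theorem ker0_rat_inv40 (r : G K) (φ : G K → ℂ) (γ₁ γ₂ : GL (Fin 2) K) (x y : G K) :
    ker0 r φ (ratG γ₁ * x) (ratG γ₂ * y) = ker0 r φ x y := by
  unfold ker0
  have h : ∀ γ : GL (Fin 2) K, (ratG γ₁ * x)⁻¹ * ratG γ * (ratG γ₂ * y)
      = x⁻¹ * ratG (((Equiv.mulLeft γ₁⁻¹).trans (Equiv.mulRight γ₂)) γ) * y := by
    intro γ
    simp [mul_assoc]
  simp_rw [h]
  exact Equiv.tsum_eq ((Equiv.mulLeft γ₁⁻¹).trans (Equiv.mulRight γ₂))
    (fun γ => flat r φ (x⁻¹ * ratG γ * y))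

/-- The periodisation of the adjoint. -/
theorem flat_adjoint40 (r : G K) (hc : ∀ g : G K, g * r = r * g) (φ : G K → ℂ) (g : G K) :
    flat r (adjointFn φ) g = conj (flat r φ g⁻¹) := by
  unfold flat adjointFn
  rw [Complex.conj_tsum]
  rw [← Equiv.tsum_eq (Equiv.neg ℤ) (fun m => conj (φ (g⁻¹ * r ^ m)))]
  refine tsum_congr fun m => ?_
  have hcm : Commute g⁻¹ (r ^ (-m)) := ((show Commute g r from hc g).inv_left).zpow_right _
  have : (g * r ^ m)⁻¹ = g⁻¹ * r ^ (-m) := by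
    rw [mul_inv_rev, ← zpow_neg]
    exact hcm.eq.symm
  simp only [Equiv.neg_apply]
  rw [this]

/-- The kernel of the adjoint is the adjoint kernel. -/
theorem ker0_adjoint40 (r : G K) (hc : ∀ g : G K, g * r = r * g) (φ : G K → ℂ) (x y : G K) :
    ker0 r (adjointFn φ) y x = conj (ker0 r φ x y) := by
  unfold ker0
  rw [Complex.conj_tsum]
  rw [← Equiv.tsum_eq (Equiv.inv (GL (Fin 2) K))
    (fun γ => conj (flat r φ (x⁻¹ * ratG γ * y)))]
  refine tsum_congr fun γ => ?_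
  rw [flat_adjoint40 r hc]
  simp [mul_assoc]

/-- If only the rational upper triangular matrices contribute, the kernel is the Borel sum. -/
theorem ker0_eq_borelSum40 (r : G K) (φ : G K → ℂ) (x y : G K)
    (h : ∀ γ : GL (Fin 2) K, ¬ T1.IsUpperRat K γ → flat r φ (x⁻¹ * ratG γ * y) = 0) :
    ker0 r φ x y = borelSum r φ x y := by
  unfold ker0 borelSum
  have hs : Function.support (fun γ : GL (Fin 2) K => flat r φ (x⁻¹ * ratG γ * y))
      ⊆ {γ | T1.IsUpperRat K γ} := by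
    intro γ hγ
    by_contra hn
    exact hγ (h γ hn)
  exact (tsum_subtype_eq_of_support_subset hs).symm

/-- **The kernel of an Eisenstein-killing test function is bounded** (from the sub-leaves). -/
theorem kerBdd_of_leaves40 (𝔫 : Ideal (𝓞 K)) (τ : G K → ℂ) (L : HS0Leaves K 𝔫 τ)
    (hR : T1.ReductionC K) (h𝔫 : 𝔫 ≠ ⊥) : KerBddC K 𝔫 τ := by
  intro μ F r hF hr φ hφ hek hek'
  obtain ⟨c, hc0, hred⟩ := hR
  have hcen := L.rayCentral r hr
  have hφ' : IsTestFn 𝔫 τ (adjointFn φ) := L.adjTest φ hφ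
  obtain ⟨T₁, hT₁⟩ := L.onlyBorel r hr φ hφ.cont hφ.supp c hc0
  obtain ⟨T₂, B₁, hB₁⟩ := L.borelSumBdd h𝔫 μ F r hF hr φ hφ hek
  obtain ⟨T₁', hT₁'⟩ := L.onlyBorel r hr (adjointFn φ) hφ'.cont hφ'.supp c hc0
  obtain ⟨T₂', B₁', hB₁'⟩ := L.borelSumBdd h𝔫 μ F r hF hr (adjointFn φ) hφ' hek'
  obtain ⟨B₂, hB₂⟩ := L.lowBdd r hr φ hφ.cont hφ.supp c (max (max T₁ T₂) (max T₁' T₂')) hc0
  refine ⟨max B₁ (max B₁' B₂), fun x y => ?_⟩
  obtain ⟨γx, tx, hx, hcx⟩ := hred x
  obtain ⟨γy, ty, hy, hcy⟩ := hred y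
  have hx' : T1.HasHeight K (ratG γx * x) tx := hx
  have hy' : T1.HasHeight K (ratG γy * y) ty := hy
  rw [← ker0_rat_inv40 r φ γx γy x y]
  by_cases h1 : max T₁ T₂ ≤ tx
  · have e := ker0_eq_borelSum40 r φ (ratG γx * x) (ratG γy * y)
      (hT₁ _ _ tx ty hx' hy' (le_trans (le_max_left _ _) h1) hcy)
    rw [e]
    exact le_trans (hB₁ _ tx hx' (le_trans (le_max_right _ _) h1) _) (le_max_left _ _)
  · by_cases h2 : max T₁' T₂' ≤ ty
    · have e := ker0_eq_borelSum40 r (adjointFn φ) (ratG γy * y) (ratG γx * x)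
        (hT₁' _ _ ty tx hy' hx' (le_trans (le_max_left _ _) h2) hcx)
      have e' := ker0_adjoint40 r hcen φ (ratG γx * x) (ratG γy * y)
      have e'' : ‖ker0 r φ (ratG γx * x) (ratG γy * y)‖
          = ‖borelSum r (adjointFn φ) (ratG γy * y) (ratG γx * x)‖ := by
        rw [← e, e', RCLike.norm_conj]
      rw [e'']
      exact le_trans (hB₁' _ ty hy' (le_trans (le_max_right _ _) h2) _)
        (le_trans (le_max_left _ _) (le_max_right _ _))
    · have h1' : tx ≤ max (max T₁ T₂) (max T₁' T₂') :=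
        le_trans (le_of_not_ge h1) (le_max_left _ _)
      have h2' : ty ≤ max (max T₁ T₂) (max T₁' T₂') :=
        le_trans (le_of_not_ge h2) (le_max_right _ _)
      exact le_trans (hB₂ _ _ tx ty hx' hy' hcx h1' hcy h2')
        (le_trans (le_max_right _ _) (le_max_right _ _))

/-- **T5.02 from its sub-leaves**: a bounded continuous kernel is square-integrable on
`F × F`, `μ(F) < ∞`. -/
theorem leafHS0_of_leaves (𝔫 : Ideal (𝓞 K)) (τ : G K → ℂ) (L : HS0Leaves K 𝔫 τ)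
    (hR : T1.ReductionC K) (hLC : T1.LocCompC K) (h𝔫 : 𝔫 ≠ ⊥) : LeafHS0 𝔫 τ := by
  intro μ F r hF hr φ hφ hek hek'
  obtain ⟨B, hB⟩ := kerBdd_of_leaves40 𝔫 τ L hR h𝔫 μ F r hF hr φ hφ hek hek'
  have hcont := L.kerCont r hr φ hφ.cont hφ.supp
  have : SecondCountableTopology (G K) := hLC.2.2.2
  have : BorelSpace (G K) := ⟨rfl⟩
  have : IsFiniteMeasure (μ.restrict F) :=
    ⟨by rw [Measure.restrict_apply_univ]; exact hF.finite⟩
  exact MemLp.of_bound hcont.aestronglyMeasurable B (Filter.Eventually.of_forall fun p => hB p.1 p.2)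

end Fermat.Agent.LT.T5.H40

end
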