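import Fermat.Agent.LT.T5.H40.HS0Core
import Fermat.Agent.LT.T5.H40.HS0Top
import Fermat.Agent.LT.T5.H873.KerSum

/-!
# Row LT, tower T5, leaf T5.02: ASSEMBLY of the estimate and adapters (helper40)

OFF-MAIN.
* `rayCentralC40 : RayCentralC K`                          (helper277 `ray_comm277`);
* `kerContC_of40 : LocCompC → DiscreteC → AdNormC → KerContC K` (helper873 `continuous_ker0_873`);
* `borelSumBdd_of_core40 : EKPointC K → TorusCountC K → PoissonTailC K 𝔫 τ → CovolOneC K →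
    T1.DiscreteC K → T1.AdNormC K → BorelSumBddC K 𝔫 τ`   (bookkeeping `B(K) = N(K) ⋊ T(K)`).
-/

set_option autoImplicit false
set_option linter.unusedSectionVars false

open IsDedekindDomain NumberField MeasureTheory
open scoped MatrixGroups ComplexConjugate

noncomputable section

namespace Fermat.Agent.LT.T5.H40

open Fermat.Agent.LT.H556.A0 Fermat.Agent.LT.T5

attribute [local instance] Fermat.Agent.LT.T5.instMeasurableSpaceG

variable {K : Type} [Field K] [NumberField K]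

/-! ## Adapters -/

/-- **T5.02b** (helper277). -/
theorem rayCentralC40 : RayCentralC K :=
  fun _ hr g => (H277.ray_comm277 hr g).symm

/-- **T5.02a** (helper873). -/
theorem kerContC_of40 (hL : T1.LocCompC K) (hD : T1.DiscreteC K) (hN : T1.AdNormC K) :
    KerContC K :=
  fun _ hr _ hc hs => H873.continuous_ker0_873 hL hD hN hr hc hs

/-! ## `B(K) = N(K) ⋊ T(K)` -/

theorem nRat_coe40 (ν : K) : ((nRat K ν : GL (Fin 2) K) : Matrix (Fin 2) (Fin 2) K)
    = !![1, ν; 0, 1] := rfl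

theorem dRat_coe40 (a b : Kˣ) : ((dRat K a b : GL (Fin 2) K) : Matrix (Fin 2) (Fin 2) K)
    = !![(a : K), 0; 0, (b : K)] := rfl

theorem nRat_mul_dRat_coe40 (ν : K) (a b : Kˣ) :
    ((nRat K ν * dRat K a b : GL (Fin 2) K) : Matrix (Fin 2) (Fin 2) K)
      = !![(a : K), ν * b; 0, (b : K)] := by
  rw [Units.val_mul, nRat_coe40, dRat_coe40]
  ext i j
  fin_cases i <;> fin_cases j <;> simp [Matrix.mul_apply, Fin.sum_univ_two]

/-- The parametrisation `(ν, (a, b, m)) ↦ (n(ν) d(a,b), m)`. -/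
def par40 (K : Type) [Field K] [NumberField K] (q : K × (Kˣ × Kˣ × ℤ)) : GL (Fin 2) K × ℤ :=
  (nRat K q.1 * dRat K q.2.1 q.2.2.1, q.2.2.2)

theorem par40_injective : Function.Injective (par40 K) := by
  rintro ⟨ν, a, b, m⟩ ⟨ν', a', b', m'⟩ h
  simp only [par40, Prod.mk.injEq] at h
  obtain ⟨h1, h2⟩ := h
  have hm := congrArg (fun g : GL (Fin 2) K => (g : Matrix (Fin 2) (Fin 2) K)) h1
  simp only [nRat_mul_dRat_coe40] at hm
  have h00 := congrFun (congrFun hm 0) 0
  have h01 := congrFun (congrFun hm 0) 1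
  have h11 := congrFun (congrFun hm 1) 1
  simp at h00 h01 h11
  have ha : a = a' := Units.ext h00
  have hb : b = b' := Units.ext h11
  subst ha hb
  have hν : ν = ν' := by
    have hb0 : (b : K) ≠ 0 := b.ne_zero
    exact mul_right_cancel₀ hb0 h01
  subst hν
  simp [h2]

theorem par40_upper (q : K × (Kˣ × Kˣ × ℤ)) : T1.IsUpperRat K (par40 K q).1 := by
  unfold T1.IsUpperRat par40
  rw [nRat_mul_dRat_coe40]
  simp

theorem mem_range_par40 (γ : GL (Fin 2) K) (m : ℤ) (h : T1.IsUpperRat K γ) :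
    (γ, m) ∈ Set.range (par40 K) := by
  unfold T1.IsUpperRat at h
  have hdet : (γ : Matrix (Fin 2) (Fin 2) K).det ≠ 0 := by
    have := (Matrix.GeneralLinearGroup.det γ).ne_zero
    simpa using this
  rw [Matrix.det_fin_two, h, mul_zero, sub_zero] at hdet
  have h0 : (γ : Matrix (Fin 2) (Fin 2) K) 0 0 ≠ 0 := left_ne_zero_of_mul hdet
  have h1 : (γ : Matrix (Fin 2) (Fin 2) K) 1 1 ≠ 0 := right_ne_zero_of_mul hdet
  refine ⟨((γ : Matrix (Fin 2) (Fin 2) K) 0 1 / (γ : Matrix (Fin 2) (Fin 2) K) 1 1,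
    Units.mk0 _ h0, Units.mk0 _ h1, m), ?_⟩
  simp only [par40, Prod.mk.injEq, and_true]
  apply Units.ext
  rw [nRat_mul_dRat_coe40]
  ext i j
  fin_cases i <;> fin_cases j <;> simp [h, h1]

theorem ratG_nRat40 (ν : K) :
    (ratG (nRat K ν) : G K) = T3.unip K (algebraMap K (Adl K) ν) := by
  apply Units.ext
  ext i j
  fin_cases i <;> fin_cases j <;>
    simp [ratG, nRat, T3.unip, Matrix.GeneralLinearGroup.map]

/-! ## The bookkeeping -/

/-- The summand of the Borel sum in the coordinates `(ν, (a, b, m))`. -/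
def bterm40 (r : G K) (φ : G K → ℂ) (x y : G K) (q : K × (Kˣ × Kˣ × ℤ)) : ℂ :=
  H873.term873 r φ x y (par40 K q)

theorem bterm40_eq (r : G K) (φ : G K → ℂ) (x y : G K) (ν : K) (i : Kˣ × Kˣ × ℤ) :
    bterm40 r φ x y (ν, i)
      = φ (x⁻¹ * ratG (nRat K ν) * (ratG (dRat K i.1 i.2.1) * y * r ^ i.2.2)) := by
  unfold bterm40 H873.term873 par40
  simp only [map_mul, mul_assoc]

theorem bterm40_eq' (r : G K) (φ : G K → ℂ) (x y : G K) (ν : K) (i : Kˣ × Kˣ × ℤ) :
    bterm40 r φ x y (ν, i)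
      = φ (x⁻¹ * T3.unip K (algebraMap K (Adl K) ν) * ratG (dRat K i.1 i.2.1) * y
          * r ^ i.2.2) := by
  rw [bterm40_eq, ratG_nRat40]
  simp only [mul_assoc]

/-- The kernel summand has finite support. -/
theorem finite_support_term40 (hD : T1.DiscreteC K) (hN : T1.AdNormC K) {r : G K}
    (hr : IsRayGen r) {φ : G K → ℂ} (hφs : HasCompactSupport φ) (x y : G K) :
    (Function.support (H873.term873 r φ x y)).Finite := by
  have hfin := H873.finite_lat873 hD hN hr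
    (H873.isCompact_box873 hφs (isCompact_singleton (x := x)) (isCompact_singleton (x := y)))
  refine hfin.subset ?_
  intro i hi
  exact H873.lat_mem_box873 hr (Set.mem_singleton x) (Set.mem_singleton y) hi

/-- **The Borel sum in coordinates**: `∑_{β ∈ B(K)} φ♭(x⁻¹ β y) = ∑_{(ν, i)} bterm`. -/
theorem borelSum_eq_tsum40 (hD : T1.DiscreteC K) (hN : T1.AdNormC K) {r : G K}
    (hr : IsRayGen r) {φ : G K → ℂ} (hφs : HasCompactSupport φ) (x y : G K) :
    borelSum r φ x y = ∑' q : K × (Kˣ × Kˣ × ℤ), bterm40 r φ x y q := by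
  classical
  have hfs := finite_support_term40 hD hN hr hφs x y
  set U : Set (GL (Fin 2) K) := {γ | T1.IsUpperRat K γ} with hU
  -- the restricted summand
  set F₃ : GL (Fin 2) K × ℤ → ℂ :=
    fun p => if T1.IsUpperRat K p.1 then H873.term873 r φ x y p else 0 with hF₃
  have hF₃s : (Function.support F₃).Finite := by
    refine hfs.subset ?_
    intro p hp
    simp only [hF₃, Function.mem_support, ne_eq] at hp ⊢
    by_cases h : T1.IsUpperRat K p.1
    · simpa [h] using hp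
    · simp [h] at hp
  have hF₃sum : Summable F₃ := summable_of_hasFiniteSupport hF₃s
  -- step 1: the Borel sum is the sum of `F₃`
  have e1 : borelSum r φ x y = ∑' γ : GL (Fin 2) K, ∑' m : ℤ, F₃ (γ, m) := by
    unfold borelSum
    have h1 : (∑' β : BorelRat K, flat r φ (x⁻¹ * ratG (β : GL (Fin 2) K) * y))
        = ∑' γ : GL (Fin 2) K, U.indicator (fun γ => flat r φ (x⁻¹ * ratG γ * y)) γ :=
      tsum_subtype U (fun γ => flat r φ (x⁻¹ * ratG γ * y))
    rw [h1]
    refine tsum_congr fun γ => ?_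
    by_cases h : T1.IsUpperRat K γ
    · rw [Set.indicator_of_mem (show γ ∈ U from h)]
      simp only [hF₃, h, if_true]
      rfl
    · rw [Set.indicator_of_notMem (show γ ∉ U from h)]
      simp only [hF₃, h, if_false, tsum_zero]
  rw [e1, ← hF₃sum.tsum_prod]
  -- step 2: re-index by the injective parametrisation
  have e2 : ∑' q : K × (Kˣ × Kˣ × ℤ), F₃ (par40 K q) = ∑' p : GL (Fin 2) K × ℤ, F₃ p := by
    refine par40_injective.tsum_eq ?_
    intro p hp
    simp only [hF₃, Function.mem_support, ne_eq] at hp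
    by_cases h : T1.IsUpperRat K p.1
    · exact mem_range_par40 p.1 p.2 h
    · simp [h] at hp
  rw [← e2]
  refine tsum_congr fun q => ?_
  simp only [hF₃, par40_upper q, if_true]
  rfl

/-- **T5.02f from its cut**: the Borel part of the kernel of an Eisenstein-killing test function
is bounded high in the cusp. -/
theorem borelSumBdd_of_core40 (𝔫 : Ideal (𝓞 K)) (τ : G K → ℂ)
    (hE : EKPointC K) (hC : TorusCountC K) (hP : PoissonTailC K 𝔫 τ) (hcov : CovolOneC K)
    (hD : T1.DiscreteC K) (hN : T1.AdNormC K) : BorelSumBddC K 𝔫 τ := by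
  classical
  let _ : MeasurableSpace (Adl K) := borel (Adl K)
  intro h𝔫 μ F r hF hr φ hφ hek
  obtain ⟨lam, hlam, hone⟩ := hcov
  obtain ⟨N₀, hN₀⟩ := hC r hr φ hφ.cont hφ.supp
  obtain ⟨T₂, B₀, hB₀⟩ := hP h𝔫 lam hlam hone φ hφ
  refine ⟨T₂, N₀ * B₀, fun x tx hx htx y => ?_⟩
  have hB₀0 : 0 ≤ B₀ := le_trans (norm_nonneg _) (hB₀ x tx hx htx 1)
  obtain ⟨S, hS, hSz⟩ := hN₀ x y
  -- the summand has finite support, in coordinates
  have hfs : (Function.support (bterm40 r φ x y)).Finite :=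
    (finite_support_term40 hD hN hr hφ.supp x y).preimage par40_injective.injOn
  have hsum : Summable (bterm40 r φ x y) := summable_of_hasFiniteSupport hfs
  have hsum' : Summable (fun c : (Kˣ × Kˣ × ℤ) × K => bterm40 r φ x y (c.2, c.1)) :=
    (Equiv.summable_iff (Equiv.prodComm (Kˣ × Kˣ × ℤ) K)).mpr hsum
  -- the sum as a sum over `S` of sums over `ν`
  have e1 : borelSum r φ x y = ∑ i ∈ S, ∑' ν : K, bterm40 r φ x y (ν, i) := by
    rw [borelSum_eq_tsum40 hD hN hr hφ.supp x y,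
      ← (Equiv.prodComm (Kˣ × Kˣ × ℤ) K).tsum_eq (bterm40 r φ x y)]
    have h2 : (∑' c : (Kˣ × Kˣ × ℤ) × K, bterm40 r φ x y ((Equiv.prodComm _ _) c))
        = ∑' i : Kˣ × Kˣ × ℤ, ∑' ν : K, bterm40 r φ x y (ν, i) := hsum'.tsum_prod
    rw [h2]
    refine tsum_eq_sum fun i hi => ?_
    have : ∀ ν : K, bterm40 r φ x y (ν, i) = 0 := fun ν => by
      rw [bterm40_eq']
      exact hSz i hi _
    simp only [this, tsum_zero]
  -- the integrals
  set I : Kˣ × Kˣ × ℤ → ℂ :=
    fun i => ∫ u, φ (x⁻¹ * T3.unip K u * ratG (dRat K i.1 i.2.1) * y * r ^ i.2.2) ∂lam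
    with hI
  have hI0 : ∀ i ∉ S, I i = 0 := by
    intro i hi
    simp only [hI]
    have : ∀ u : Adl K,
        φ (x⁻¹ * T3.unip K u * ratG (dRat K i.1 i.2.1) * y * r ^ i.2.2) = 0 := hSz i hi
    simp only [this, integral_zero]
  have hIsum : ∑ i ∈ S, I i = 0 := by
    have hts : ∑' i : Kˣ × Kˣ × ℤ, I i = ∑ i ∈ S, I i := tsum_eq_sum (fun i hi => hI0 i hi)
    rw [← hts]
    exact hE μ hF.haar lam hlam r hr φ hφ.cont hφ.supp hek x y
  -- the errors
  have hErr : ∀ i : Kˣ × Kˣ × ℤ, ‖(∑' ν : K, bterm40 r φ x y (ν, i)) - I i‖ ≤ B₀ := by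
    intro i
    have h := hB₀ x tx hx htx (ratG (dRat K i.1 i.2.1) * y * r ^ i.2.2)
    have e : (∑' ν : K, bterm40 r φ x y (ν, i))
        = ∑' ν : K, φ (x⁻¹ * ratG (nRat K ν) * (ratG (dRat K i.1 i.2.1) * y * r ^ i.2.2)) :=
      tsum_congr fun ν => bterm40_eq r φ x y ν i
    have e' : I i
        = ∫ u, φ (x⁻¹ * T3.unip K u * (ratG (dRat K i.1 i.2.1) * y * r ^ i.2.2)) ∂lam := by
      simp only [hI, mul_assoc]
    rw [e, e']
    exact h
  calc ‖borelSum r φ x y‖
      = ‖∑ i ∈ S, ((∑' ν : K, bterm40 r φ x y (ν, i)) - I i)‖ := by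
        rw [Finset.sum_sub_distrib, hIsum, sub_zero, e1]
    _ ≤ ∑ i ∈ S, ‖(∑' ν : K, bterm40 r φ x y (ν, i)) - I i‖ := norm_sum_le _ _
    _ ≤ ∑ _i ∈ S, B₀ := Finset.sum_le_sum fun i _ => hErr i
    _ = S.card * B₀ := by rw [Finset.sum_const, nsmul_eq_mul]
    _ ≤ N₀ * B₀ := by
        apply mul_le_mul_of_nonneg_right _ hB₀0
        exact_mod_cast hS

/-! ## T5.02 from the open sub-leaves -/

/-- ALL OPEN SUB-LEAVES of T5.02 after the cut (registry rows 1188--1195). -/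
structure HS0Open (K : Type) [Field K] [NumberField K] (𝔫 : Ideal (𝓞 K)) (τ : G K → ℂ) :
    Prop where
  adjTest : AdjTestC K 𝔫 τ
  lowBdd : LowBddC K
  onlyBorel : OnlyBorelC K
  ekPoint : EKPointC K
  torusCount : TorusCountC K
  poissonTail : PoissonTailC K 𝔫 τ
  covolOne : CovolOneC K

/-- The six leaves of `HS0Spec` from the open sub-leaves and the output of T1. -/
theorem hs0Leaves_of_open40 (𝔫 : Ideal (𝓞 K)) (τ : G K → ℂ) (O : HS0Open K 𝔫 τ)
    (hL : T1.LocCompC K) (hD : T1.DiscreteC K) (hN : T1.AdNormC K) : HS0Leaves K 𝔫 τ where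
  kerCont := kerContC_of40 hL hD hN
  rayCentral := rayCentralC40
  adjTest := O.adjTest
  lowBdd := O.lowBdd
  onlyBorel := O.onlyBorel
  borelSumBdd := borelSumBdd_of_core40 𝔫 τ O.ekPoint O.torusCount O.poissonTail O.covolOne hD hN

/-- **The kernel of an Eisenstein-killing test function of level `𝔫 ≠ 0` is bounded**, from the
open sub-leaves and the output of T1. -/
theorem kerBdd_of_open40 (𝔫 : Ideal (𝓞 K)) (τ : G K → ℂ) (O : HS0Open K 𝔫 τ)
    (h1 : T1.T1Out K) (h𝔫 : 𝔫 ≠ ⊥) : KerBddC K 𝔫 τ :=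
  kerBdd_of_leaves40 𝔫 τ (hs0Leaves_of_open40 𝔫 τ O h1.locComp h1.discrete h1.adNorm)
    h1.reduction h𝔫

/-- **T5.02 `LeafHS0` from the open sub-leaves and the output of T1.** -/
theorem leafHS0_of_open40 (𝔫 : Ideal (𝓞 K)) (τ : G K → ℂ) (O : HS0Open K 𝔫 τ)
    (h1 : T1.T1Out K) (h𝔫 : 𝔫 ≠ ⊥) : LeafHS0 𝔫 τ :=
  leafHS0_of_leaves 𝔫 τ (hs0Leaves_of_open40 𝔫 τ O h1.locComp h1.discrete h1.adNorm)
    h1.reduction h1.locComp h𝔫

end Fermat.Agent.LT.T5.H40

end
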