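import Fermat.Agent.LT.T5.H40.HS0Spec
import Fermat.Agent.LT.T3.Spec

/-!
# Row LT, tower T5, leaf T5.02f `BorelSumBddC` (THE ESTIMATE): SUB-SPEC of the cut (helper40)

OFF-MAIN.  Definitions + frozen Props; the PROVED assembly
`borelSumBdd_of_core40 : EKPointC → TorusCountC → PoissonTailC → … → BorelSumBddC` is in
`HS0Asm.lean`.  Vocabulary: `T3.unip K u = n(u)`, `T3.IsCovolOne` (T3/Spec, helper14, sha256
`44de320b8621…`), `T1.HasHeight`.  Typed on `T5/Spec` v4 (`f2d97e70548f…`).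

## The cut

`B(K) = N(K) ⋊ T(K)`: `β = n(ν) d(a,b)`, `ν ∈ K`, `a, b ∈ Kˣ`.  For fixed `x, y`

  `∑_{β ∈ B(K)} φ♭(x⁻¹ β y) = ∑_{(a,b,m)} ∑_{ν ∈ K} φ(x⁻¹ n(ν) d(a,b) y rᵐ)`,

a finite sum.  For every `(a,b,m)` write, with `g = d(a,b) y rᵐ`,

  `∑_{ν ∈ K} φ(x⁻¹ n(ν) g) = ∫_𝔸 φ(x⁻¹ n(u) g) du + E(x, g)`   (`vol(𝔸/K) = 1`).

* `EKPointC`     (T5.02f1): `∑_{(a,b,m)} ∫_𝔸 φ(x⁻¹ n(u) d(a,b) g rᵐ) du = 0` for ALL `x, g`
                 (pointwise form of the operator condition `T5.IsEK` of Spec v4; v2 of this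
                 file: periodised along the ray).
* `TorusCountC`  (T5.02f2): at most `N₀` triples `(a,b,m)` have a non-zero term, for ALL `x, y`.
* `PoissonTailC` (T5.02f3): `|E(x, g)| ≤ B₀` for `x` high in the cusp and ALL `g`
                 (smooth lattice Riemann sums / Poisson summation; level `𝔫 ≠ 0`).

Then `|∑_{β} φ♭(x⁻¹ β y)| = |∑_{(a,b,m)} E(x, d(a,b) y rᵐ)| ≤ N₀ B₀`.
-/

set_option autoImplicit false

open IsDedekindDomain NumberField MeasureTheory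
open scoped MatrixGroups ComplexConjugate

noncomputable section

namespace Fermat.Agent.LT.T5.H40

open Fermat.Agent.LT.H556.A0 Fermat.Agent.LT.T5

attribute [local instance] Fermat.Agent.LT.T5.instMeasurableSpaceG

variable (K : Type) [Field K] [NumberField K]

/-- The rational unipotent matrix `n(ν) = [[1, ν], [0, 1]]`. -/
def nRat (ν : K) : GL (Fin 2) K :=
  ⟨!![1, ν; 0, 1], !![1, -ν; 0, 1],
    by ext i j; fin_cases i <;> fin_cases j <;> simp [Matrix.mul_apply, Fin.sum_univ_two],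
    by ext i j; fin_cases i <;> fin_cases j <;> simp [Matrix.mul_apply, Fin.sum_univ_two]⟩

/-- The rational diagonal matrix `d(a, b) = diag(a, b)`. -/
def dRat (a b : Kˣ) : GL (Fin 2) K :=
  ⟨!![(a : K), 0; 0, (b : K)], !![((a⁻¹ : Kˣ) : K), 0; 0, ((b⁻¹ : Kˣ) : K)],
    by ext i j; fin_cases i <;> fin_cases j <;> simp [Matrix.mul_apply, Fin.sum_univ_two],
    by ext i j; fin_cases i <;> fin_cases j <;> simp [Matrix.mul_apply, Fin.sum_univ_two]⟩

/-- There is a Haar measure of `𝔸_K` for which `𝔸_K / K` has volume `1`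
(`T1.LocCompC` + `T1.AddFundDomC`). -/
def CovolOneC : Prop :=
  letI : MeasurableSpace (Adl K) := borel (Adl K)
  ∃ lam : Measure (Adl K), lam.IsAddHaarMeasure ∧ T3.IsCovolOne K lam

/-- **T5.02f1 (Eisenstein-killing, POINTWISE form; v2 = PERIODISED along the ray, for
`T5/Spec` v4).**  If `R(φ)` kills every continuous function which is left invariant under
`N(𝔸_K) T(K)` and right invariant under the ray generator `r` (`T5.IsEK`, Spec v4), then for all
`x, g`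
`∑_{(a,b,m) ∈ Kˣ × Kˣ × ℤ} ∫_{𝔸_K} φ(x⁻¹ n(u) d(a,b) g rᵐ) du = 0` (a finite sum).
(The unperiodised identity is FALSE on Spec v4: referee helper739 #16314, witness
`φ = η - η(· r)`.)

Proof without quotient measures.  Fix `x`, put `A(g) =` the left side: `A` is continuous, left
invariant under `N(𝔸_K)` (translation of `u`) and `T(K)` (re-indexing; `u ↦ (a/b) u` preserves
the Haar measure: product formula, `T3.HaarScaleC`) and right invariant under `r` (re-indexing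
of `m`).  For `η ∈ C_c(G)` and `Ψ` continuous with the same invariances, Fubini and the
invariance of `μ` (`r` is central) give
`∫_G η A Ψ dμ = ∫_G φ(x⁻¹ g) η̃(g) Ψ(g) dμ(g) = R(φ)(η̃ Ψ)(x) = 0`, where
`η̃(g) = ∑_{(a,b,m)} ∫ η(d(a,b)⁻¹ n(-u) g r⁻ᵐ) du` is again continuous with the same
invariances.  With `Ψ = conj A`: `∫ η |A|² dμ = 0` for all `η ≥ 0`, hence `A = 0`. -/
def EKPointC : Prop :=
  letI : MeasurableSpace (Adl K) := borel (Adl K)
  ∀ μ : Measure (G K), μ.IsHaarMeasure → ∀ lam : Measure (Adl K), lam.IsAddHaarMeasure →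
    ∀ r : G K, IsRayGen r →
    ∀ φ : G K → ℂ, Continuous φ → HasCompactSupport φ → IsEK μ φ →
      ∀ x g : G K,
        ∑' i : Kˣ × Kˣ × ℤ,
          ∫ u, φ (x⁻¹ * T3.unip K u * ratG (dRat K i.1 i.2.1) * g * r ^ i.2.2) ∂lam = 0

/-- **T5.02f2 (the torus count).**  For a function of compact support there is `N₀` such that for
ALL `x, y` at most `N₀` triples `(a, b, m) ∈ Kˣ × Kˣ × ℤ` admit a `u ∈ 𝔸_K` with
`φ(x⁻¹ n(u) d(a,b) y rᵐ) ≠ 0`.

Proof.  If `(a,b,m)` and `(a',b',m')` both do, then `x⁻¹ n(u') δ n(-u) x ∈ C C⁻¹`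
(`C = supp φ`, `δ = d(a'/a, b'/b) r^{m'-m}`, `r` central); trace and determinant are invariant
under conjugation, so `δ₁ + δ₂` and `δ₁ δ₂` lie in fixed compact sets of `𝔸_K`, `𝔸_Kˣ`;
`‖δ₁ δ₂‖ = 2^{m'-m}` bounds `m' - m` (`T1.AdNormC`), and `K` is discrete in `𝔸_K`
(`T1.AdeleLatticeC`): finitely many `(a'/a, b'/b, m' - m)`, independently of `x, y`. -/
def TorusCountC : Prop :=
  ∀ r : G K, IsRayGen r → ∀ φ : G K → ℂ, Continuous φ → HasCompactSupport φ →
    ∃ N₀ : ℕ, ∀ x y : G K, ∃ S : Finset (Kˣ × Kˣ × ℤ), S.card ≤ N₀ ∧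
      ∀ i : Kˣ × Kˣ × ℤ, i ∉ S → ∀ u : Adl K,
        φ (x⁻¹ * T3.unip K u * ratG (dRat K i.1 i.2.1) * y * r ^ i.2.2) = 0

/-- **T5.02f3 (THE ANALYTIC CORE: the Poisson tail / lattice Riemann sum error is bounded).**
For a test function `φ` of level `𝔫 ≠ 0` (smooth at infinity, invariant under the open group
`U(𝔫)`) and the Haar measure of covolume one on `𝔸_K`: for `x` high in the cusp and ALL `g`,
`|∑_{ν ∈ K} φ(x⁻¹ n(ν) g) - ∫_{𝔸_K} φ(x⁻¹ n(u) g) du| ≤ B₀`.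

Proof.  `x = β z a ω` (`T1.SiegelCompactC`), `β ∈ B(K)`, `z` central, `a = diag(s, 1)` at the
infinite places, `ω ∈ Ω` compact, `s^{[K:ℚ]} ≍ H(x)`.  Sum and integral are unchanged when `x` is
replaced by `a ω` and `g` by `z⁻¹ β⁻¹ g` (`β⁻¹ n(u) β = n(c u + ν₀)`, `c ∈ Kˣ`, `ν₀ ∈ K`; product
formula).  `a⁻¹ n(u) a = n(s⁻¹ u_∞, u_f)`, so the function is `u ↦ Φ(s⁻¹ u_∞, u_f)` with
`Φ(u) = φ(ω⁻¹ n(u) g')`; if `Φ ≠ 0` then `g' = n(-u₀) ω c₀`, `c₀ ∈ supp φ`, and `Φ` is a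
translate of a member of the COMPACT family `Φ⁰_{ω,c₀}(u) = φ(ω⁻¹ n(u) ω c₀)`, which is smooth in
`u_∞` with uniformly bounded derivatives and invariant under a fixed open compact subgroup of the
finite adeles (`U(𝔫)` open, `Ω` compact).  The sum over `K` is a finite sum of sums over shifted
ideal lattices in `K_∞ = ℝⁿ` of `s`-dilated smooth functions: the difference to `sⁿ ∫` is
`O(s^{n-k})` for every `k` (helper42 `ARS-CORE`; or `T3.PoissonNDC` + integration by parts). -/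
def PoissonTailC (𝔫 : Ideal (𝓞 K)) (τ : G K → ℂ) : Prop :=
  letI : MeasurableSpace (Adl K) := borel (Adl K)
  𝔫 ≠ ⊥ → ∀ lam : Measure (Adl K), lam.IsAddHaarMeasure → T3.IsCovolOne K lam →
    ∀ φ : G K → ℂ, IsTestFn 𝔫 τ φ →
      ∃ T₂ B₀ : ℝ, ∀ (x : G K) (tx : ℝ), T1.HasHeight K x tx → T₂ ≤ tx → ∀ g : G K,
        ‖(∑' ν : K, φ (x⁻¹ * ratG (nRat K ν) * g)) - ∫ u, φ (x⁻¹ * T3.unip K u * g) ∂lam‖ ≤ B₀

/-- **Height distortion** (sub-leaf of T5.02e): right multiplication by an element of a compact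
set changes the height by a bounded factor.  (`g = b k`, `k ω = b' k'` with `k ω` in the compact
set `K⁰ C`; `H(g ω) = H(b) H(b')`, and the height is continuous and positive.) -/
def HeightDistC : Prop :=
  ∀ C : Set (G K), IsCompact C → ∃ D : ℝ, 0 < D ∧ ∀ (g ω : G K) (t t' : ℝ), ω ∈ C →
    T1.HasHeight K g t → T1.HasHeight K (g * ω) t' → t ≤ D * t'

/-- ALL SUB-LEAVES of T5.02f. -/
structure CoreLeaves (𝔫 : Ideal (𝓞 K)) (τ : G K → ℂ) : Prop where
  ekPoint : EKPointC K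
  torusCount : TorusCountC K
  poissonTail : PoissonTailC K 𝔫 τ

end Fermat.Agent.LT.T5.H40

end
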