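import Fermat.Agent.LT.T5.Spec
import Fermat.Agent.LT.T1.Spec

/-!
# Row LT, tower T5, leaf T5.02 `LeafHS0` (Hilbert--Schmidt, untwisted kernel): SUB-SPEC (helper40)

OFF-MAIN.  Definitions + frozen sub-leaf Props; the PROVED top `leafHS0_of_leaves` is in
`HS0Top.lean`.  Imports: `T5/Spec.lean` (helper32, v3, sha256 `d6f8b00ae5f1…`) and `T1/Spec.lean`
(helper54, sha256 `e8ae48d6010e…`), byte-identical copies.

## Route: the kernel of an Eisenstein-killing test function is BOUNDED

`LeafHS0` asks `K_φ(x,y) = ∑_γ φ♭(x⁻¹ γ y) ∈ L²(F × F)`, `μ(F) < ∞`.  We prove more: `K_φ` is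
continuous and BOUNDED on `GL₂(𝔸) × GL₂(𝔸)` when `φ` and `φ*` are Eisenstein-killing
(Gelfand--Piatetski-Shapiro; Godement, *Notes on Jacquet--Langlands* §3; Lindenstrauss--Venkatesh
§3).  `H` = the height of `T1` (`T1.HasHeight`), `c` = the constant of `T1.ReductionC`.

* `KerContC`     : `K_φ` is continuous on `G × G` (the sum over `(γ, m)` is locally finite).
* `RayCentralC`  : the ray generator is central.
* `AdjTestC`     : `φ*` is a test function.
* `LowBddC`      : `K_φ` is bounded on `{c ≤ H(x), H(y) ≤ T}` (Siegel sets are compact modulo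
                   `B(K) Z(𝔸)` and the ray; Fujisaki for the centre).  No EK needed.
* `OnlyBorelC`   : for `H(x) ≥ T₁`, `H(y) ≥ c` only `γ ∈ B(K)` contributes to `K_φ(x,y)`
                   (`T1.SiegelSepC` + bounded distortion of the height under a compact set).
* `BorelSumBddC` : THE ESTIMATE.  For `φ` Eisenstein-killing, `𝔫 ≠ 0`, and `H(x) ≥ T₂`, the sum
                   `∑_{β ∈ B(K)} φ♭(x⁻¹ β y)` is bounded uniformly in `x` and in ALL `y`
                   (Poisson summation over `N(K)`; the term `ξ = 0` summed over `T(K)` vanishes by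
                   EK; the terms `ξ ≠ 0` are `O(s^{n-N})` by smoothness at infinity).
                   STATION: cut in `HS0Core.lean`.

Then `K_φ` is bounded: move `x, y` into the Siegel set (`T1.ReductionC`, invariance of the
kernel); `H(x) ≥ T₀`: `OnlyBorelC` + `BorelSumBddC` for `φ`; `H(y) ≥ T₀`: the same for `φ*`
(`K_{φ*}(y,x) = conj K_φ(x,y)`); otherwise `LowBddC`.

REMARK (`𝔫 = 0`).  For `𝔫 = ⊥` the level group is trivial and a test function is only continuous
in the finite adelic variables; the estimate needs `U(𝔫)` open.  The top carries `𝔫 ≠ ⊥`.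
-/

set_option autoImplicit false

open IsDedekindDomain NumberField MeasureTheory
open scoped MatrixGroups ComplexConjugate

noncomputable section

namespace Fermat.Agent.LT.T5.H40

open Fermat.Agent.LT.H556.A0 Fermat.Agent.LT.T5

attribute [local instance] Fermat.Agent.LT.T5.instMeasurableSpaceG

variable (K : Type) [Field K] [NumberField K]

/-- The rational upper triangular matrices `B(K)`, as a subtype of `GL₂(K)`. -/
abbrev BorelRat : Type := {γ : GL (Fin 2) K // T1.IsUpperRat K γ}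

variable {K}

/-- The part of the kernel coming from `B(K)`: `∑_{β ∈ B(K)} φ♭(x⁻¹ β y)`. -/
def borelSum (r : G K) (φ : G K → ℂ) (x y : G K) : ℂ :=
  ∑' β : BorelRat K, flat r φ (x⁻¹ * ratG (β : GL (Fin 2) K) * y)

variable (K)

/-- **T5.02a.**  The kernel of a continuous compactly supported function is continuous on
`G × G`.  (`GL₂(K) · ⟨r⟩` is discrete and closed in `GL₂(𝔸_K)`: `T1.DiscreteC` and
`‖det r‖ = 2`; the double sum is locally finite.) -/
def KerContC : Prop :=
  ∀ r : G K, IsRayGen r → ∀ φ : G K → ℂ, Continuous φ → HasCompactSupport φ →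
    Continuous (fun p : G K × G K => ker0 r φ p.1 p.2)

/-- **T5.02b.**  The generator of the discrete ray is central. -/
def RayCentralC : Prop :=
  ∀ r : G K, IsRayGen r → ∀ g : G K, g * r = r * g

/-- **T5.02c.**  The adjoint of a test function is a test function. -/
def AdjTestC (𝔫 : Ideal (𝓞 K)) (τ : G K → ℂ) : Prop :=
  ∀ φ : G K → ℂ, IsTestFn 𝔫 τ φ → IsTestFn 𝔫 τ (adjointFn φ)

/-- **T5.02d.**  The kernel is bounded where both heights are bounded (above and below). -/
def LowBddC : Prop :=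
  ∀ r : G K, IsRayGen r → ∀ φ : G K → ℂ, Continuous φ → HasCompactSupport φ →
    ∀ c T : ℝ, 0 < c → ∃ B : ℝ, ∀ (x y : G K) (tx ty : ℝ),
      T1.HasHeight K x tx → T1.HasHeight K y ty → c ≤ tx → tx ≤ T → c ≤ ty → ty ≤ T →
        ‖ker0 r φ x y‖ ≤ B

/-- **T5.02e.**  High in the cusp only the rational upper triangular matrices contribute. -/
def OnlyBorelC : Prop :=
  ∀ r : G K, IsRayGen r → ∀ φ : G K → ℂ, Continuous φ → HasCompactSupport φ →
    ∀ c : ℝ, 0 < c → ∃ T₁ : ℝ, ∀ (x y : G K) (tx ty : ℝ),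
      T1.HasHeight K x tx → T1.HasHeight K y ty → T₁ ≤ tx → c ≤ ty →
        ∀ γ : GL (Fin 2) K, ¬ T1.IsUpperRat K γ → flat r φ (x⁻¹ * ratG γ * y) = 0

/-- **T5.02f (THE ESTIMATE of Gelfand--Piatetski-Shapiro, boundedness form).**  For an
Eisenstein-killing test function of level `𝔫 ≠ 0` the `B(K)`-part of the kernel is bounded for
`x` high in the cusp, uniformly in `y ∈ GL₂(𝔸_K)`. -/
def BorelSumBddC (𝔫 : Ideal (𝓞 K)) (τ : G K → ℂ) : Prop :=
  𝔫 ≠ ⊥ →
  ∀ (μ : Measure (G K)) (F : Set (G K)) (r : G K), IsFrame μ F → IsRayGen r →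
    ∀ φ : G K → ℂ, IsTestFn 𝔫 τ φ → IsEK μ φ →
      ∃ T₂ B : ℝ, ∀ (x : G K) (tx : ℝ), T1.HasHeight K x tx → T₂ ≤ tx →
        ∀ y : G K, ‖borelSum r φ x y‖ ≤ B

/-- **The kernel of an Eisenstein-killing test function is bounded.** -/
def KerBddC (𝔫 : Ideal (𝓞 K)) (τ : G K → ℂ) : Prop :=
  ∀ (μ : Measure (G K)) (F : Set (G K)) (r : G K), IsFrame μ F → IsRayGen r →
    ∀ φ : G K → ℂ, IsTestFn 𝔫 τ φ → IsEK μ φ → IsEK μ (adjointFn φ) →
      ∃ B : ℝ, ∀ x y : G K, ‖ker0 r φ x y‖ ≤ B

/-- ALL SUB-LEAVES of T5.02 for the number field `K`, the level `𝔫` and the type `τ`. -/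
structure HS0Leaves (𝔫 : Ideal (𝓞 K)) (τ : G K → ℂ) : Prop where
  kerCont : KerContC K
  rayCentral : RayCentralC K
  adjTest : AdjTestC K 𝔫 τ
  lowBdd : LowBddC K
  onlyBorel : OnlyBorelC K
  borelSumBdd : BorelSumBddC K 𝔫 τ

end Fermat.Agent.LT.T5.H40

end
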